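import Fermat.Agent.SharpChebotarev.Psi
import Fermat.Agent.CyclicReductions.Frobenius
import Fermat.Agent.ArtinHooley.Kummer
import Mathlib.NumberTheory.LegendreSymbol.Basic

/-!
# Many primes at which a negative integer is a square

On the Riemann hypothesis for `ℚ(√D)`, `D < 0`, there are at least
`L / (2 log (2 L)) - O (√L (log |4 D| + log L))` primes `l ∈ (L, 2 L]` with `D` a square modulo `l`.
-/

set_option autoImplicit false
set_option linter.style.haveILetI false

noncomputable section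

open NumberField IsDedekindDomain Module Finset Polynomial
open FA.ArtinHooley (logInt KummerField)
open FA.CyclicRed (AllFieldsRH)
open FA.NaturalChebotarev (countIn someFrobSet)
open FA.ChebError (share)
open FA.Hecke (primesLE mem_primesLE)
open scoped Classical

namespace FA.SharpLangTrotter

/-- The primes in `(L, 2 L]` modulo which `D` is a square. -/
def splitRange (D : ℤ) (L : ℕ) : Finset ℕ :=
  (Finset.Ioc L (2 * L)).filter fun l => l.Prime ∧ IsSquare (D : ZMod l)

/-- The field `ℚ(√D)`, `D < 0`. -/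
theorem sqrt_facts {D : ℤ} (hD : D < 0) :
    IsGalois ℚ (KummerField D 2) ∧ finrank ℚ (KummerField D 2) = 2 ∧
      Real.log (((discr (KummerField D 2)).natAbs : ℕ) : ℝ) ≤
        2 * (2 * Real.log 2 + Real.log |(D : ℝ)|) ∧
      ∃ x : 𝓞 (KummerField D 2), x ^ 2 = (D : 𝓞 (KummerField D 2)) := by
  obtain ⟨P, hP⟩ : ∃ P : ℚ[X], P = X ^ 2 - C (D : ℚ) := ⟨_, rfl⟩
  have hPsep : P.Separable :=
    hP ▸ separable_X_pow_sub_C _ two_ne_zero (by exact_mod_cast hD.ne)
  haveI hsf : IsSplittingField ℚ (KummerField D 2) P := by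
    rw [hP]
    convert Polynomial.IsSplittingField.splittingField (X ^ 2 - C (D : ℚ)) using 2
    exact Subsingleton.elim _ _
  have hgal : IsGalois ℚ (KummerField D 2) :=
    IsGalois.of_separable_splitting_field (p := P) hPsep
  have hroot : ∀ r : KummerField D 2, r ∈ P.rootSet (KummerField D 2) ↔
      r ^ 2 = (D : KummerField D 2) := fun r => by
    rw [hP, mem_rootSet, map_sub, map_pow, aeval_X, aeval_C, sub_eq_zero,
      map_intCast (algebraMap ℚ (KummerField D 2)) D]
    exact and_iff_right (X_pow_sub_C_ne_zero two_pos _)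
  obtain ⟨α, hα⟩ : ∃ α : KummerField D 2, α ^ 2 = (D : KummerField D 2) := by
    have hcard : Fintype.card (P.rootSet (KummerField D 2)) = 2 := by
      rw [card_rootSet_eq_natDegree hPsep (IsSplittingField.splits _ _), hP, natDegree_X_pow_sub_C]
    obtain ⟨⟨α, hα⟩⟩ : Nonempty (P.rootSet (KummerField D 2)) :=
      Fintype.card_pos_iff.1 (by rw [hcard]; norm_num)
    exact ⟨α, (hroot α).1 hα⟩
  have htop : IntermediateField.adjoin ℚ {(-1 : KummerField D 2), α} = ⊤ := by
    refine IntermediateField.toSubalgebra_injective ?_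
    rw [IntermediateField.top_toSubalgebra, eq_top_iff,
      ← IsSplittingField.adjoin_rootSet (KummerField D 2) P, Algebra.adjoin_le_iff]
    intro r hr
    have hmem : α ∈ IntermediateField.adjoin ℚ {(-1 : KummerField D 2), α} :=
      IntermediateField.subset_adjoin ℚ _ (by simp)
    rcases sq_eq_sq_iff_eq_or_eq_neg.1 (((hroot r).1 hr).trans hα.symm) with h | h <;> rw [h]
    exacts [hmem, neg_mem hmem]
  have hζ : IsPrimitiveRoot (-1 : KummerField D 2) 2 := IsPrimitiveRoot.neg_one 0 (by decide)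
  have hpow : ∀ q ∈ (2 : ℕ).primeFactors,
      ∀ b : IntermediateField.adjoin ℚ {(-1 : KummerField D 2)}, b ^ q ≠ (D : _) :=
    fun q hq b hb => by
    rw [Nat.prime_two.primeFactors, Finset.mem_singleton] at hq
    subst hq
    have hbot : IntermediateField.adjoin ℚ {(-1 : KummerField D 2)} = ⊥ :=
      IntermediateField.adjoin_simple_eq_bot_iff.2 (IntermediateField.mem_bot.2 ⟨-1, by simp⟩)
    obtain ⟨r, hr⟩ := IntermediateField.mem_bot.1 (hbot.le b.2)
    have h2 : algebraMap ℚ (KummerField D 2) (r ^ 2) =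
        algebraMap ℚ (KummerField D 2) (D : ℚ) := by
      simp only [map_pow, hr, map_intCast]
      exact congrArg Subtype.val hb
    have h3 : r ^ 2 = (D : ℚ) := (algebraMap ℚ (KummerField D 2)).injective h2
    have : (D : ℚ) < 0 := by exact_mod_cast hD
    nlinarith
  obtain ⟨hdeg, hdisc, -⟩ := FA.ArtinHooley.finrank_and_discr_of_gens (L := KummerField D 2)
    hD.ne Nat.prime_two.squarefree dvd_rfl hζ hα htop hpow
  rw [Nat.totient_two, mul_one] at hdeg hdisc
  have hint : IsIntegral ℤ α := IsIntegral.of_pow two_pos (by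
    rw [hα]; exact isIntegral_algebraMap (R := ℤ) (A := KummerField D 2) (x := D))
  obtain ⟨x, hx⟩ : ∃ x : 𝓞 (KummerField D 2), (x : KummerField D 2) = α := ⟨⟨α, hint⟩, rfl⟩
  refine ⟨hgal, hdeg, by exact_mod_cast hdisc, x, RingOfIntegers.ext ?_⟩
  simp only [map_pow, map_intCast]
  exact (congrArg (· ^ 2) hx).trans hα

/-- A split prime not dividing `2 D` has `D` as a square. -/
theorem isSquare_of_split {D : ℤ} {v : HeightOneSpectrum (𝓞 ℚ)} {p : ℕ}
    (hv : Ideal.absNorm v.asIdeal = p) (hp2 : p ≠ 2) (hpD : ¬ (p : ℤ) ∣ D)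
    {x : 𝓞 (KummerField D 2)} (hx : x ^ 2 = (D : 𝓞 (KummerField D 2)))
    [IsGalois ℚ (KummerField D 2)]
    (h : v ∈ someFrobSet ℚ (KummerField D 2) {1}) : IsSquare (D : ZMod p) := by
  have hp : p.Prime := hv ▸ FA.Chebotarev.absNorm_prime v
  haveI : Fact p.Prime := ⟨hp⟩
  obtain ⟨Q, hQ, hQv, τ, hτ1, hτ⟩ := h
  rw [Set.mem_singleton_iff] at hτ1
  haveI := hQ.isPrime
  have hpQ : (p : 𝓞 (KummerField D 2)) ∈ Q := by
    have h1 := Ideal.absNorm_mem v.asIdeal
    rw [hv, ← hQv, Ideal.mem_comap, map_natCast] at h1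
    exact h1
  have hcard : Nat.card (𝓞 ℚ ⧸ Q.under (𝓞 ℚ)) = p := by
    rw [hQv, ← Submodule.cardQuot_apply, ← Ideal.absNorm_apply, hv]
  have hint : ∀ z : ℤ, (z : 𝓞 (KummerField D 2)) ∈ Q → (p : ℤ) ∣ z := fun z hz => by
    by_contra hnd
    obtain ⟨s, t, hst⟩ := (Nat.prime_iff_prime_int.1 hp).coprime_iff_not_dvd.2 hnd
    refine hQ.ne_top ((Ideal.eq_top_iff_one _).2 ?_)
    rw [← Int.cast_one, ← hst]
    push_cast
    exact Q.add_mem (Q.mul_mem_left _ hpQ) (Q.mul_mem_left _ hz)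
  obtain ⟨k, hk⟩ : ∃ k, p = 2 * k + 1 := ⟨p / 2, by have := hp.eq_two_or_odd; omega⟩
  have h1 := hτ x
  rw [hcard, hτ1] at h1
  have h2 : x * ((1 - D ^ k : ℤ) : 𝓞 (KummerField D 2)) ∈ Q := by
    have e : x * ((1 - D ^ k : ℤ) : 𝓞 (KummerField D 2)) = x - x ^ p := by
      simp only [hk, pow_succ, pow_mul, hx]
      push_cast
      ring
    rw [e]
    simpa using h1
  have hD0 : (D : ZMod p) ≠ 0 := fun h0 => hpD ((ZMod.intCast_zmod_eq_zero_iff_dvd _ _).1 h0)
  refine (ZMod.euler_criterion p hD0).2 ?_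
  rcases ‹Q.IsPrime›.mem_or_mem h2 with hx' | hk'
  · exact absurd (hint D (hx ▸ Q.pow_mem_of_mem hx' 2 two_pos)) hpD
  · have h3 := (ZMod.intCast_zmod_eq_zero_iff_dvd _ _).2 (hint _ hk')
    rw [show p / 2 = k by omega]
    push_cast at h3
    exact (sub_eq_zero.1 h3).symm

/-- `∫_L^(2 L) dt / log t ≥ L / log (2 L)`. -/
theorem logInt_sub_ge {L : ℕ} (hL : 2 ≤ L) :
    (L : ℝ) / Real.log (2 * L) ≤ logInt (2 * L : ℝ) - logInt L := by
  have hL2 : (2 : ℝ) ≤ L := by exact_mod_cast hL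
  have hint : ∀ a b : ℝ, 2 ≤ a → 2 ≤ b →
      IntervalIntegrable (fun t => 1 / Real.log t) MeasureTheory.volume a b := fun a b ha hb => by
    refine ContinuousOn.intervalIntegrable fun t ht => ?_
    have ht2 : 2 ≤ t := le_trans (le_min ha hb) ht.1
    exact (continuousAt_const.div (Real.continuousAt_log (by linarith))
      (Real.log_pos (by linarith)).ne').continuousWithinAt
  have e : logInt (2 * L : ℝ) - logInt L = ∫ t in (L : ℝ)..(2 * L), 1 / Real.log t :=
    intervalIntegral.integral_interval_sub_left (hint _ _ le_rfl (by linarith))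
      (hint _ _ le_rfl hL2)
  rw [e]
  refine le_trans (le_of_eq ?_) (intervalIntegral.integral_mono_on (μ := MeasureTheory.volume)
    (f := fun _ => 1 / Real.log (2 * L)) (by linarith) intervalIntegrable_const
    (hint _ _ hL2 (by linarith)) fun t ht => ?_)
  · rw [intervalIntegral.integral_const, smul_eq_mul]
    ring
  · exact one_div_le_one_div_of_le (Real.log_pos (by linarith [ht.1]))
      (Real.log_le_log (by linarith [ht.1]) ht.2)

/-- **Many split primes.** -/
theorem exists_many_split : ∃ A : ℝ, 0 ≤ A ∧ ∀ D : ℤ, D < 0 → AllFieldsRH → ∀ L : ℕ, 2 ≤ L →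
    (L : ℝ) / (2 * Real.log (2 * L)) ≤
      (splitRange D L).card + A * √(L : ℝ) * (Real.log (4 * |(D : ℝ)|) + Real.log (2 * L)) := by
  obtain ⟨A, hA, hcount⟩ := FA.SharpCheb.exists_countF_sharp.{0, 0}
  refine ⟨4 * A + 2, by positivity, fun D hD hGRH L hL => ?_⟩
  obtain ⟨hgal, hdeg, hdisc, x, hx⟩ := sqrt_facts hD
  haveI := hgal
  have hC : ∀ g ∈ ({1} : Set (KummerField D 2 ≃ₐ[ℚ] KummerField D 2)), ∀ y,
      y * g * y⁻¹ ∈ ({1} : Set (KummerField D 2 ≃ₐ[ℚ] KummerField D 2)) := fun g hg y => by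
    rw [Set.mem_singleton_iff] at hg ⊢
    simp [hg]
  have hshare : share ({1} : Set (KummerField D 2 ≃ₐ[ℚ] KummerField D 2)) = 1 / 2 := by
    rw [share, Nat.card_unique, IsGalois.card_aut_eq_finrank, hdeg]
    norm_num
  obtain ⟨U, hU⟩ : ∃ U, U = someFrobSet ℚ (KummerField D 2) {1} := ⟨_, rfl⟩
  have hL2 : (2 : ℝ) ≤ L := by exact_mod_cast hL
  obtain ⟨R, hR⟩ : ∃ R, R = Real.log (4 * |(D : ℝ)|) + Real.log (2 * L) := ⟨_, rfl⟩
  rw [← hR]
  have hD1 : 1 ≤ |(D : ℝ)| := by
    rw [← Int.cast_abs]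
    exact_mod_cast Int.one_le_abs hD.ne
  have hlD : 0 ≤ Real.log |(D : ℝ)| := Real.log_nonneg hD1
  have hlL : 0 ≤ Real.log L := Real.log_natCast_nonneg L
  have h4D : Real.log (4 * |(D : ℝ)|) = 2 * Real.log 2 + Real.log |(D : ℝ)| := by
    rw [Real.log_mul (by norm_num) (by linarith), show (4 : ℝ) = 2 ^ 2 by norm_num, Real.log_pow]
    norm_num
  have hlt : Real.log L ≤ Real.log (2 * L) := Real.log_le_log (by linarith) (by linarith)
  have hl2 := Real.log_two_gt_d9
  have herr : ∀ y : ℝ, 2 ≤ y → y ≤ 2 * L →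
      |(countIn U y : ℝ) - 1 / 2 * logInt y| ≤ 2 * A * (√(L : ℝ) * R) := fun y hy hy2 => by
    have h := hcount (hGRH (KummerField D 2)) {1} hC y hy
    rw [hshare, ← hU] at h
    refine h.trans ?_
    rw [FA.DedekindZeroCount.discLog, hdeg]
    have hs : √y ≤ 2 * √(L : ℝ) := by
      rw [show (2 : ℝ) * √(L : ℝ) = √(4 * L) by
        rw [Real.sqrt_mul (by norm_num), show (4 : ℝ) = 2 ^ 2 by norm_num,
          Real.sqrt_sq (by norm_num)]]
      exact Real.sqrt_le_sqrt (by linarith)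
    have hly : Real.log y ≤ Real.log (2 * L) := Real.log_le_log (by linarith) hy2
    have hsum : Real.log (((discr (KummerField D 2)).natAbs : ℕ) : ℝ) +
        ((2 : ℕ) : ℝ) * Real.log y ≤ 2 * R := by
      rw [hR, h4D]
      push_cast
      linarith
    calc A * (1 / 2) * (√y * (Real.log (((discr (KummerField D 2)).natAbs : ℕ) : ℝ) +
          ((2 : ℕ) : ℝ) * Real.log y))
        ≤ A * (1 / 2) * (2 * √(L : ℝ) * (2 * R)) := by
          refine mul_le_mul_of_nonneg_left ((mul_le_mul_of_nonneg_left hsum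
            (Real.sqrt_nonneg _)).trans ?_) (by positivity)
          exact mul_le_mul_of_nonneg_right hs (by rw [hR, h4D]; linarith)
      _ = _ := by ring
  obtain ⟨E, hE⟩ : ∃ E : Finset ℕ, E = (2 * D.natAbs).primeFactors := ⟨_, rfl⟩
  have hsub : ((primesLE ℚ (2 * L)).filter (· ∈ U)) \ ((primesLE ℚ L).filter (· ∈ U)) ⊆
      ((primesLE ℚ (2 * L)).filter fun v => Ideal.absNorm v.asIdeal ∈ splitRange D L ∪ E) := by
    intro v hv
    rw [Finset.mem_sdiff, mem_filter, mem_filter] at hv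
    obtain ⟨⟨hv2, hvU⟩, hv1⟩ := hv
    refine mem_filter.2 ⟨hv2, ?_⟩
    obtain ⟨p, hp⟩ : ∃ p, Ideal.absNorm v.asIdeal = p := ⟨_, rfl⟩
    have hpp : p.Prime := hp ▸ FA.Chebotarev.absNorm_prime v
    rw [hp, mem_union]
    by_cases hpE : p ∈ E
    · exact Or.inr hpE
    left
    rw [hE, Nat.mem_primeFactors] at hpE
    have hndvd : ¬ p ∣ 2 * D.natAbs := fun h =>
      hpE ⟨hpp, h, mul_ne_zero two_ne_zero (Int.natAbs_ne_zero.2 hD.ne)⟩
    refine mem_filter.2 ⟨Finset.mem_Ioc.2 ⟨lt_of_not_ge fun h => hv1 ⟨mem_primesLE.2 (hp ▸ h), hvU⟩,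
      hp ▸ mem_primesLE.1 hv2⟩, hpp, isSquare_of_split hp
      (fun e => hndvd (by rw [e]; exact dvd_mul_right 2 _))
      (fun h => hndvd ((Int.natCast_dvd.1 h).mul_left 2)) hx (hU ▸ hvU)⟩
  have hc : (countIn U (2 * L : ℝ) : ℝ) - countIn U (L : ℝ) ≤
      (splitRange D L).card + E.card := by
    have h1 := card_le_card hsub
    have h2 : ((primesLE ℚ (2 * L)).filter fun v =>
        Ideal.absNorm v.asIdeal ∈ splitRange D L ∪ E).card ≤ (splitRange D L ∪ E).card :=
      Finset.card_le_card_of_injOn (fun v => Ideal.absNorm v.asIdeal)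
        (fun v hv => (mem_filter.1 hv).2) fun v _ w _ e => FA.CyclicRed.absNorm_injective e
    have h3 := le_trans (Finset.le_card_sdiff ((primesLE ℚ L).filter (· ∈ U))
      ((primesLE ℚ (2 * L)).filter (· ∈ U))) (h1.trans (h2.trans (card_union_le _ _)))
    have e1 : countIn U (2 * L : ℝ) = ((primesLE ℚ (2 * L)).filter (· ∈ U)).card := by
      rw [countIn, show (2 * L : ℝ) = ((2 * L : ℕ) : ℝ) by push_cast; ring, Nat.floor_natCast]
    have e2 : countIn U (L : ℝ) = ((primesLE ℚ L).filter (· ∈ U)).card := by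
      rw [countIn, Nat.floor_natCast]
    rw [sub_le_iff_le_add, e1, e2]
    exact_mod_cast (Nat.sub_le_iff_le_add.1 h3)
  have hEc : (E.card : ℝ) ≤ 2 * R := by
    have h1 : (2 : ℕ) ^ E.card ≤ 2 * D.natAbs := by
      refine le_trans ?_ (Nat.le_of_dvd (Nat.pos_of_ne_zero (mul_ne_zero two_ne_zero
        (Int.natAbs_ne_zero.2 hD.ne))) (hE ▸ Nat.prod_primeFactors_dvd _))
      rw [← Finset.prod_const]
      exact Finset.prod_le_prod (fun _ _ => zero_le) fun p hp => by
        rw [hE] at hp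
        exact (Nat.prime_of_mem_primeFactors hp).two_le
    have h2 : (E.card : ℝ) * Real.log 2 ≤ Real.log (4 * |(D : ℝ)|) := by
      rw [← Real.log_pow]
      refine Real.log_le_log (by positivity) ?_
      have e : ((D.natAbs : ℕ) : ℝ) = |(D : ℝ)| := by rw [Nat.cast_natAbs, Int.cast_abs]
      have : ((2 : ℕ) : ℝ) ^ E.card ≤ 2 * |(D : ℝ)| := by rw [← e]; exact_mod_cast h1
      push_cast at this
      linarith
    have h3 := mul_le_mul_of_nonneg_left (show (0.5 : ℝ) ≤ Real.log 2 by linarith)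
      (Nat.cast_nonneg (α := ℝ) E.card)
    rw [hR]
    linarith
  have ha := (abs_le.1 (herr (2 * L) (by linarith) le_rfl)).1
  have hb := (abs_le.1 (herr L hL2 (by linarith))).2
  have hi := logInt_sub_ge hL
  have hR0 : 0 ≤ R := by rw [hR, h4D]; linarith
  have h5 : 2 * R ≤ 2 * (√(L : ℝ) * R) :=
    mul_le_mul_of_nonneg_left (le_mul_of_one_le_left hR0 (Real.one_le_sqrt.2 (by linarith)))
      two_pos.le
  have h6 : (L : ℝ) / (2 * Real.log (2 * L)) = 1 / 2 * ((L : ℝ) / Real.log (2 * L)) := by ring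
  linarith

end FA.SharpLangTrotter

end
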