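import Fermat.Agent.SharpLangTrotter.Borel
import Fermat.Agent.SharpLangTrotter.SplitPrimes
import Mathlib.Combinatorics.Enumerative.DoubleCounting

/-!
# Averaging over the levels

Each `p` with `a_p = t` and `t² < 4 p` has `t² - 4 p` a square modulo a constant share of the primes
`l ∈ (L, 2 L]`, so the number of them is at most a constant times the largest count at one level;
`L = N ^ e / log ^ s N`, `e = 1 / (2 (k + 1))`, `s = 2 / (k + 1)`, gives
`O (N ^ (1 - e) (log N) ^ (s - 1))`.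
-/

set_option autoImplicit false
set_option linter.style.haveILetI false

noncomputable section

open Filter Finset WeierstrassCurve FA.Frob
open FA.ArtinHooley (logInt)
open FA.CyclicRed (AllFieldsRH badPrimes)
open FA.TraceDist (glLevel)
open scoped Classical Topology WeierstrassCurve.Affine

namespace FA.SharpLangTrotter

/-- `2 · #(primes in (L, 2 L])` is small. -/
theorem card_primes_range_le {L : ℕ} (hL : 2 ≤ L) :
    ((((Finset.Ioc L (2 * L)).filter Nat.Prime).card : ℕ) : ℝ) * Real.log L ≤ 3 * L := by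
  obtain ⟨U, hU⟩ : ∃ U, U = (Finset.Ioc L (2 * L)).filter Nat.Prime := ⟨_, rfl⟩
  rw [← hU]
  have hL0 : (0 : ℝ) < L := Nat.cast_pos.2 (by omega)
  have h1 : (U.card : ℝ) * Real.log L ≤ ∑ p ∈ U, Real.log (p : ℝ) := by
    rw [← nsmul_eq_mul]
    refine card_nsmul_le_sum U _ _ fun p hp => Real.log_le_log hL0 (Nat.cast_le.2 ?_)
    rw [hU, mem_filter, Finset.mem_Ioc] at hp
    omega
  have h2 : ∑ p ∈ U, Real.log (p : ℝ) ≤ Chebyshev.theta ((2 * L : ℕ) : ℝ) := by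
    rw [Chebyshev.theta_eq_sum_primesLE_log]
    refine sum_le_sum_of_subset_of_nonneg (fun p hp => ?_) fun p _ _ => Real.log_natCast_nonneg p
    rw [hU, mem_filter, Finset.mem_Ioc] at hp
    exact Nat.mem_primesLE.2 ⟨hp.1.2, hp.2⟩
  have h3 := Chebyshev.theta_le_log4_mul_x (Nat.cast_nonneg (α := ℝ) (2 * L))
  have h4 : Real.log 4 ≤ 1.4 := by
    rw [show (4 : ℝ) = 2 ^ 2 by norm_num, Real.log_pow]
    push_cast
    linarith [Real.log_two_lt_d9]
  push_cast at h2 h3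
  have h5 := mul_le_mul_of_nonneg_right h4 (show (0 : ℝ) ≤ 2 * L by positivity)
  linarith

/-- The good primes `p ≤ N` with `a_p = t`. -/
def traceCount (W : WeierstrassCurve ℤ) (t : ℤ) (N : ℕ) : Finset ℕ :=
  (Icc 1 N).filter fun p => p.Prime ∧ ¬ (p : ℤ) ∣ W.Δ ∧ W.apOfModel p = t

/-- The part handled by the averaging. -/
def mainPart (W : WeierstrassCurve ℤ) (t : ℤ) (N : ℕ) : Finset ℕ :=
  (traceCount W t N).filter fun p => p ∉ badPrimes W ∧ t ^ 2 < 4 * p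

theorem card_traceCount_le (W : WeierstrassCurve ℤ) (t : ℤ) (N : ℕ) :
    (traceCount W t N).card ≤ (mainPart W t N).card + (badPrimes W).card + (t.natAbs ^ 2 + 1) := by
  refine le_trans (card_le_card (t := mainPart W t N ∪ badPrimes W ∪ range (t.natAbs ^ 2 + 1))
    fun p hp => ?_) ((card_union_le _ _).trans (by
      rw [card_range]
      exact Nat.add_le_add_right (card_union_le _ _) _))
  rw [mem_union, mem_union, Finset.mem_range]
  by_cases hb : p ∈ badPrimes W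
  · exact Or.inl (Or.inr hb)
  by_cases ht : t ^ 2 < 4 * (p : ℤ)
  · exact Or.inl (Or.inl (mem_filter.2 ⟨hp, hb, ht⟩))
  refine Or.inr ?_
  have h1 : (p : ℤ) ≤ ((t.natAbs ^ 2 : ℕ) : ℤ) := by
    rw [Nat.cast_pow, Int.natCast_natAbs, sq_abs]
    linarith [Int.natCast_nonneg p]
  omega

/-- **The double count.** -/
theorem card_mainPart_le {W : WeierstrassCurve ℤ} {t : ℤ} {N L : ℕ} (hL : 2 ≤ L) {M : ℝ}
    (hsplit : ∀ p ∈ mainPart W t N,
      (L : ℝ) / (4 * Real.log (2 * L)) ≤ (splitRange (t ^ 2 - 4 * p) L).card)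
    (hM : ∀ l ∈ (Finset.Ioc L (2 * L)).filter Nat.Prime, ((borelCount W t l N).card : ℝ) ≤ M) :
    ((mainPart W t N).card : ℝ) ≤ 24 * M := by
  obtain ⟨V, hV⟩ : ∃ V, V = (Finset.Ioc L (2 * L)).filter Nat.Prime := ⟨_, rfl⟩
  obtain ⟨U, hU⟩ : ∃ U, U = mainPart W t N := ⟨_, rfl⟩
  rw [← hV] at hM
  rw [← hU] at hsplit ⊢
  have hswap := Finset.sum_card_bipartiteAbove_eq_sum_card_bipartiteBelow
    (fun (p l : ℕ) => IsSquare ((t ^ 2 - 4 * p : ℤ) : ZMod l)) (s := U) (t := V)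
  have hlow : (U.card : ℝ) * ((L : ℝ) / (4 * Real.log (2 * L))) ≤
      ((∑ p ∈ U, (V.bipartiteAbove
        (fun (p l : ℕ) => IsSquare ((t ^ 2 - 4 * p : ℤ) : ZMod l)) p).card : ℕ) : ℝ) := by
    rw [← nsmul_eq_mul, Nat.cast_sum]
    refine card_nsmul_le_sum U _ _ fun p hp => (hsplit p hp).trans (le_of_eq ?_)
    congr 2
    rw [splitRange, Finset.bipartiteAbove, hV, Finset.filter_filter]
  have hup : ((∑ l ∈ V, (U.bipartiteBelow
      (fun (p l : ℕ) => IsSquare ((t ^ 2 - 4 * p : ℤ) : ZMod l)) l).card : ℕ) : ℝ) ≤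
      (V.card : ℝ) * M := by
    rw [← nsmul_eq_mul, Nat.cast_sum]
    refine Finset.sum_le_card_nsmul V _ _ fun l hl => le_trans (Nat.cast_le.2 (card_le_card
      fun p hp => ?_)) (hM l hl)
    rw [Finset.bipartiteBelow, mem_filter, hU, mainPart, mem_filter, traceCount, mem_filter] at hp
    obtain ⟨⟨⟨hpN, hpp, -, hat⟩, hb, -⟩, hsq⟩ := hp
    refine mem_filter.2 ⟨hpN, hpp, hb, by rw [hat], ?_⟩
    push_cast at hsq
    exact hsq
  rw [hswap] at hlow
  have hL2 : (2 : ℝ) ≤ L := by exact_mod_cast hL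
  have hl1 : 0 < Real.log L := Real.log_pos (by linarith)
  have hl2 : Real.log (2 * L) ≤ 2 * Real.log L := by
    rw [Real.log_mul two_ne_zero (by linarith)]
    linarith [Real.log_le_log two_pos hL2]
  rcases eq_or_ne V.card 0 with h0 | h0
  · rw [h0, Nat.cast_zero, zero_mul] at hup
    have h : (U.card : ℝ) * ((L : ℝ) / (4 * Real.log (2 * L))) ≤ 0 := hlow.trans hup
    have hpos : 0 < (L : ℝ) / (4 * Real.log (2 * L)) :=
      div_pos (by linarith) (mul_pos (by norm_num) (Real.log_pos (by linarith)))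
    rcases eq_or_ne U.card 0 with hU0 | hU0
    · rw [hU0, Nat.cast_zero]
      obtain ⟨l, hl, hl1', hl2'⟩ := Nat.exists_prime_lt_and_le_two_mul L (by omega)
      exact absurd (Finset.card_eq_zero.1 h0) (Finset.nonempty_iff_ne_empty.1
        ⟨l, hV ▸ mem_filter.2 ⟨Finset.mem_Ioc.2 ⟨hl1', hl2'⟩, hl⟩⟩)
    · have := mul_pos (Nat.cast_pos.2 (Nat.pos_of_ne_zero hU0) : (0 : ℝ) < U.card) hpos
      linarith
  obtain ⟨l, hl⟩ := Finset.card_pos.1 (Nat.pos_of_ne_zero h0)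
  have hM0 : 0 ≤ M := (Nat.cast_nonneg _).trans (hM l hl)
  have h := hlow.trans hup
  rw [mul_div_assoc', div_le_iff₀ (mul_pos (by norm_num) (Real.log_pos (by linarith)))] at h
  refine le_of_mul_le_mul_right ?_ (show (0 : ℝ) < L by linarith)
  have h6 := card_primes_range_le hL
  rw [← hV] at h6
  calc (U.card : ℝ) * L ≤ (V.card : ℝ) * M * (4 * Real.log (2 * L)) := h
    _ ≤ (V.card : ℝ) * M * (8 * Real.log L) := by
        refine mul_le_mul_of_nonneg_left (by linarith) (by positivity)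
    _ = 8 * M * ((V.card : ℝ) * Real.log L) := by ring
    _ ≤ 8 * M * (3 * L) := mul_le_mul_of_nonneg_left h6 (by linarith)
    _ = 24 * M * L := by ring

/-- **The optimum.** -/
theorem exists_trace_bound {W : WeierstrassCurve ℤ} [(ratCurve W).IsElliptic] (hΔ : W.Δ ≠ 0)
    (hGRH : AllFieldsRH) {m : ℕ}
    (hsurj : ∀ l : ℕ, ∀ [Fact l.Prime], m < l → Function.Surjective (glLevel W l))
    (t : ℤ) {k : ℕ} (hk : k = 2 ∨ (k = 1 ∧ t = 0)) :
    ∃ C : ℝ, ∀ N : ℕ, 2 ≤ N → ((traceCount W t N).card : ℝ) ≤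
      C * ((N : ℝ) ^ (1 - 1 / (2 * ((k : ℝ) + 1))) * Real.log N ^ (2 / ((k : ℝ) + 1) - 1)) := by
  obtain ⟨A, hA, hlevel⟩ := exists_level_count
  obtain ⟨A', hA', hmany⟩ := exists_many_split
  obtain ⟨e, he⟩ : ∃ e : ℝ, e = 1 / (2 * ((k : ℝ) + 1)) := ⟨_, rfl⟩
  obtain ⟨s, hs⟩ : ∃ s : ℝ, s = 2 / ((k : ℝ) + 1) := ⟨_, rfl⟩
  rw [← he, ← hs]
  have hk1 : (1 : ℝ) ≤ k := by
    rcases hk with rfl | ⟨rfl, -⟩ <;> norm_num
  have he0 : 0 < e := by rw [he]; positivity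
  have he4 : e ≤ 1 / 4 := by
    rw [he, div_le_div_iff₀ (by positivity) (by norm_num)]
    linarith
  have hs0 : 0 < s := by rw [hs]; positivity
  have hs1 : s ≤ 1 := by
    rw [hs, div_le_one (by positivity)]
    linarith
  obtain ⟨T, hT⟩ : ∃ T, T = ∑ p ∈ badPrimes W, Real.log (p : ℝ) := ⟨_, rfl⟩
  have hT0 : 0 ≤ T := hT ▸ sum_nonneg fun p _ => Real.log_natCast_nonneg p
  obtain ⟨b, hb⟩ : ∃ b : ℝ, b = (badPrimes W).card + 1 := ⟨_, rfl⟩
  obtain ⟨c, hc⟩ : ∃ c : ℝ, c = ((t.natAbs ^ 2 + 1 : ℕ) : ℝ) := ⟨_, rfl⟩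
  obtain ⟨a, ha⟩ : ∃ a : ℝ, a = Real.log (16 * (1 + c)) := ⟨_, rfl⟩
  have hc0 : 0 ≤ c := by rw [hc]; positivity
  have hn := tendsto_natCast_atTop_atTop (R := ℝ)
  have hlog : Tendsto (fun N : ℕ => Real.log N) atTop atTop := Real.tendsto_log_atTop.comp hn
  have hsmall : ∀ δ : ℝ, 0 < δ → ∀ K : ℝ, ∀ᶠ N : ℕ in atTop,
      K * Real.log N ^ 2 ≤ (N : ℝ) ^ δ := fun δ hδ K => by
    have h := ((isLittleO_log_rpow_atTop (half_pos hδ)).pow two_pos).comp_tendsto hn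
    filter_upwards [h.def (show (0 : ℝ) < 1 / (|K| + 1) by positivity),
      eventually_gt_atTop 0] with N hN hN0
    have hN' : (0 : ℝ) < N := Nat.cast_pos.2 hN0
    simp only [Function.comp_apply, norm_pow, Real.norm_eq_abs] at hN
    rw [abs_of_nonneg (Real.rpow_nonneg hN'.le _), ← Real.rpow_natCast ((N : ℝ) ^ (δ / 2)),
      ← Real.rpow_mul hN'.le, sq_abs, show δ / 2 * ((2 : ℕ) : ℝ) = δ by push_cast; ring] at hN
    rw [div_mul_eq_mul_div, one_mul, le_div_iff₀ (by positivity)] at hN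
    have := mul_le_mul_of_nonneg_right (le_abs_self K) (sq_nonneg (Real.log N))
    linarith [sq_nonneg (Real.log (N : ℝ))]
  have hli : ∀ᶠ N : ℕ in atTop, logInt N ≤ 2 * (N / Real.log N) := by
    filter_upwards [(FA.ArtinHooley.tendsto_logInt.comp hn).eventually
      (Iic_mem_nhds (show (1 : ℝ) < 2 by norm_num)), hlog.eventually_ge_atTop 1,
      eventually_gt_atTop 0] with N hN hL hN0
    have hN' : (0 : ℝ) < N := Nat.cast_pos.2 hN0
    change logInt N * Real.log N / N ≤ 2 at hN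
    rw [← mul_div_assoc, le_div_iff₀ (by linarith)]
    rw [div_le_iff₀ hN'] at hN
    linarith
  obtain ⟨N₀, hN₀⟩ := eventually_atTop.1 (((hsmall (e / 2) (by linarith) 1).and
    (hlog.eventually_ge_atTop (max (max (8 + T) a) 4))).and
    (((hsmall (e / 8) (by linarith) (80 * A' + 1)).and
      (hsmall (e / 2) (by linarith) ((m : ℝ) + 4))).and
    (((hsmall (1 / 4) (by norm_num) (b + c + 10)).and hli))))
  obtain ⟨C₁, hC₁⟩ : ∃ C₁ : ℝ, C₁ = 24 * (8 + A * 4 ^ k * 4 * 4 + 1) + 2 := ⟨_, rfl⟩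
  obtain ⟨Φ, hΦ⟩ : ∃ Φ : ℕ → ℝ, Φ = fun N : ℕ => (N : ℝ) ^ (1 - e) * Real.log N ^ (s - 1) :=
    ⟨_, rfl⟩
  refine ⟨C₁ + ∑ n ∈ range (max N₀ 2), |((n : ℕ) : ℝ) / Φ n|, fun N hN => ?_⟩
  have hN1 : (1 : ℝ) ≤ N := Nat.one_le_cast.2 (by omega)
  have hN0 : (0 : ℝ) < N := by linarith
  have hℓ0 : 0 < Real.log N := Real.log_pos (by exact_mod_cast (show 1 < N by omega))
  have hΦ0 : 0 < Φ N := by rw [hΦ]; positivity
  rw [show (N : ℝ) ^ (1 - e) * Real.log N ^ (s - 1) = Φ N by rw [hΦ]]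
  rcases lt_or_ge N (max N₀ 2) with hlt | hge
  · have h1 : |(N : ℝ) / Φ N| ≤ ∑ n ∈ range (max N₀ 2), |(n : ℝ) / Φ n| :=
      single_le_sum (fun (n : ℕ) _ => abs_nonneg ((n : ℝ) / Φ n)) (Finset.mem_range.2 hlt)
    have h2 : ((traceCount W t N).card : ℝ) ≤ N := Nat.cast_le.2
      ((card_filter_le _ _).trans (by simp))
    have hC10 : 0 ≤ C₁ := by rw [hC₁]; positivity
    have h3 := mul_le_mul_of_nonneg_right ((le_abs_self _).trans h1) hΦ0.le
    rw [div_mul_cancel₀ _ hΦ0.ne'] at h3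
    have := mul_nonneg hC10 hΦ0.le
    linarith
  obtain ⟨⟨he2, hlarge⟩, ⟨he8, hm⟩, hquarter, hliN⟩ := hN₀ N (le_trans (le_max_left _ _) hge)
  obtain ⟨ℓ, hℓ⟩ : ∃ ℓ, ℓ = Real.log (N : ℝ) := ⟨_, rfl⟩
  rw [← hℓ] at he2 hlarge he8 hm hquarter hliN hℓ0
  have hΦN : Φ N = (N : ℝ) ^ (1 - e) * ℓ ^ (s - 1) := by rw [hΦ, hℓ]
  obtain ⟨hl8, hl4⟩ := max_le_iff.1 hlarge
  obtain ⟨hlT, hla⟩ := max_le_iff.1 hl8
  obtain ⟨y, hy⟩ : ∃ y : ℝ, y = (N : ℝ) ^ e / ℓ ^ s := ⟨_, rfl⟩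
  have hls1 : 1 ≤ ℓ ^ s := Real.one_le_rpow (by linarith) hs0.le
  have hlsl : ℓ ^ s ≤ ℓ := Real.rpow_le_self_of_one_le (by linarith) hs1
  have hye : y ≤ (N : ℝ) ^ e := by
    rw [hy]
    exact div_le_self (Real.rpow_nonneg hN0.le _) hls1
  have hye2 : (N : ℝ) ^ (e / 2) ≤ y := by
    rw [hy, le_div_iff₀ (by linarith)]
    calc (N : ℝ) ^ (e / 2) * ℓ ^ s ≤ (N : ℝ) ^ (e / 2) * (N : ℝ) ^ (e / 2) := by
          refine mul_le_mul_of_nonneg_left (hlsl.trans (le_trans ?_ he2))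
            (Real.rpow_nonneg hN0.le _)
          rw [one_mul]
          exact le_self_pow₀ (by linarith) two_ne_zero
      _ = _ := by rw [← Real.rpow_add hN0, add_halves]
  have h16 : (16 : ℝ) ≤ ℓ ^ 2 := by nlinarith
  have hym : (m : ℝ) + 4 ≤ y := le_trans (le_trans (le_mul_of_one_le_right (by positivity)
    (by linarith)) hm) hye2
  have hy0 : 0 ≤ y := le_trans (by positivity) hym
  obtain ⟨L, hLdef⟩ : ∃ L, L = ⌈y⌉₊ := ⟨_, rfl⟩
  have hyL : y ≤ L := hLdef ▸ Nat.le_ceil y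
  have hL2y : (L : ℝ) ≤ 2 * y := by
    have := Nat.ceil_lt_add_one hy0
    rw [← hLdef] at this
    linarith [Nat.cast_nonneg (α := ℝ) m]
  have hL4 : (m : ℝ) + 4 ≤ L := hym.trans hyL
  have hL2 : 2 ≤ L := by
    have : (2 : ℝ) ≤ L := by linarith [Nat.cast_nonneg (α := ℝ) m]
    exact_mod_cast this
  have hml : m < L := by
    have : (m : ℝ) < L := by linarith
    exact_mod_cast this
  have hLN : 4 * (L : ℝ) ≤ 8 * N := by
    have := Real.rpow_le_self_of_one_le hN1 (by linarith : e ≤ 1)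
    linarith
  have hlog2L : Real.log (2 * L) ≤ 2 * ℓ := by
    refine (Real.log_le_log (by positivity) (show (2 : ℝ) * L ≤ 4 * N by linarith)).trans ?_
    rw [Real.log_mul (by norm_num) (by linarith), ← hℓ]
    linarith [Real.log_le_sub_one_of_pos (show (0 : ℝ) < 4 by norm_num)]

  have hsplit : ∀ p ∈ mainPart W t N,
      (L : ℝ) / (4 * Real.log (2 * L)) ≤ (splitRange (t ^ 2 - 4 * p) L).card := fun p hp => by
    rw [mainPart, mem_filter, traceCount, mem_filter, mem_Icc] at hp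
    obtain ⟨⟨⟨-, hpN⟩, -⟩, -, ht⟩ := hp
    have h := hmany (t ^ 2 - 4 * p) (by linarith) hGRH L hL2
    have hD : Real.log (4 * |((t ^ 2 - 4 * p : ℤ) : ℝ)|) ≤ 2 * ℓ := by
      refine (Real.log_le_log ?_
        (show 4 * |((t ^ 2 - 4 * p : ℤ) : ℝ)| ≤ 16 * (1 + c) * N from ?_)).trans ?_
      · have : ((t ^ 2 - 4 * p : ℤ) : ℝ) ≠ 0 := Int.cast_ne_zero.2 (by linarith)
        positivity
      · have e1 : c = (t : ℝ) ^ 2 + 1 := by
          rw [hc]
          push_cast [Nat.cast_natAbs]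
          rw [sq_abs]
        have hpN' : (p : ℝ) ≤ N := Nat.cast_le.2 hpN
        have := le_mul_of_one_le_right (show 0 ≤ (t : ℝ) ^ 2 by positivity) hN1
        push_cast
        rw [e1]
        have h5 : |(t : ℝ) ^ 2 - 4 * p| ≤ (t : ℝ) ^ 2 + 4 * N := by
          rw [abs_le]
          constructor <;> linarith [sq_nonneg (t : ℝ), Nat.cast_nonneg (α := ℝ) p]
        linarith
      · rw [Real.log_mul (by linarith : (16 : ℝ) * (1 + c) ≠ 0) (by linarith), ← ha, ← hℓ]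
        linarith
    have hbig : A' * √(L : ℝ) * (4 * ℓ) ≤ (L : ℝ) / (4 * Real.log (2 * L)) := by
      rw [le_div_iff₀ (mul_pos (by norm_num) (Real.log_pos (by
        linarith [Nat.cast_nonneg (α := ℝ) m])))]
      have h7 : (N : ℝ) ^ (e / 8) ≤ √(L : ℝ) := by
        refine le_trans (Real.rpow_le_rpow_of_exponent_le hN1 (show e / 8 ≤ e / 4 by linarith))
          (le_trans (le_of_eq ?_) (Real.sqrt_le_sqrt (hye2.trans hyL)))
        rw [Real.sqrt_eq_rpow, ← Real.rpow_mul hN0.le]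
        ring_nf
      calc A' * √(L : ℝ) * (4 * ℓ) * (4 * Real.log (2 * L))
          ≤ A' * √(L : ℝ) * (4 * ℓ) * (4 * (2 * ℓ)) := by gcongr
        _ = √(L : ℝ) * (32 * A' * ℓ ^ 2) := by ring
        _ ≤ √(L : ℝ) * √(L : ℝ) := mul_le_mul_of_nonneg_left (le_trans (le_trans
            (mul_le_mul_of_nonneg_right (by linarith) (sq_nonneg ℓ)) he8) h7) (Real.sqrt_nonneg _)
        _ = L := Real.mul_self_sqrt (Nat.cast_nonneg _)
    have h9 : A' * √(L : ℝ) * (Real.log (4 * |((t ^ 2 - 4 * p : ℤ) : ℝ)|) + Real.log (2 * L)) ≤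
        A' * √(L : ℝ) * (4 * ℓ) := mul_le_mul_of_nonneg_left (by linarith) (by positivity)
    have h10 : (L : ℝ) / (2 * Real.log (2 * L)) = 2 * ((L : ℝ) / (4 * Real.log (2 * L))) := by ring
    linarith

  obtain ⟨M, hMdef⟩ : ∃ M : ℝ, M = (8 + A * 4 ^ k * 4 * 4 + 1) * Φ N := ⟨_, rfl⟩
  have hsq : (N : ℝ) ^ (3 / 4 : ℝ) ≤ Φ N * ℓ := by
    rw [hΦN, mul_assoc, ← Real.rpow_add_one hℓ0.ne', sub_add_cancel]
    exact (Real.rpow_le_rpow_of_exponent_le hN1 (by linarith)).trans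
      (le_mul_of_one_le_right (Real.rpow_nonneg hN0.le _) hls1)
  have hrest : b + c + 4 * (N : ℝ) ^ e ≤ Φ N := by
    refine le_of_mul_le_mul_right ?_ hℓ0
    refine le_trans ?_ hsq
    have h1 : (N : ℝ) ^ e ≤ (N : ℝ) ^ (1 / 4 : ℝ) := Real.rpow_le_rpow_of_exponent_le hN1 he4
    have h2 : (1 : ℝ) ≤ (N : ℝ) ^ (1 / 4 : ℝ) := Real.one_le_rpow hN1 (by norm_num)
    have hb0 : 0 ≤ b := by rw [hb]; positivity
    have hc0 : 0 ≤ c := by rw [hc]; positivity
    calc (b + c + 4 * (N : ℝ) ^ e) * ℓ ≤ ((b + c + 4) * (N : ℝ) ^ (1 / 4 : ℝ)) * ℓ := by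
          refine mul_le_mul_of_nonneg_right ?_ hℓ0.le
          have := le_mul_of_one_le_right (show 0 ≤ b + c by linarith) h2
          linarith
      _ = (N : ℝ) ^ (1 / 4 : ℝ) * ((b + c + 4) * ℓ) := by ring
      _ ≤ (N : ℝ) ^ (1 / 4 : ℝ) * (N : ℝ) ^ (1 / 4 : ℝ) := by
          refine mul_le_mul_of_nonneg_left (le_trans ?_ hquarter) (Real.rpow_nonneg hN0.le _)
          have := mul_le_mul_of_nonneg_left
            (show ℓ ≤ ℓ ^ 2 from le_self_pow₀ (by linarith) two_ne_zero)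
            (show 0 ≤ b + c + 4 by linarith)
          have := mul_nonneg (show (0 : ℝ) ≤ 6 by norm_num) (sq_nonneg ℓ)
          linarith
      _ ≤ _ := by
          rw [← Real.rpow_add hN0]
          exact Real.rpow_le_rpow_of_exponent_le hN1 (by norm_num)
  have hM : ∀ l ∈ (Finset.Ioc L (2 * L)).filter Nat.Prime,
      ((borelCount W t l N).card : ℝ) ≤ M := fun l hl => by
    rw [mem_filter, Finset.mem_Ioc] at hl
    obtain ⟨⟨hLl, hl2⟩, hlp⟩ := hl
    haveI := Fact.mk hlp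
    have h := hlevel W hΔ hGRH l (by omega) (hsurj l (by omega)) t N hN k hk
    rw [← hT, ← hℓ, ← hb] at h
    have hyl : y ≤ l := hyL.trans (Nat.cast_le.2 hLl.le)
    have hl4y : (l : ℝ) ≤ 4 * y := by
      have : (l : ℝ) ≤ 2 * L := by exact_mod_cast hl2
      linarith
    have hypos : 0 < y := by linarith [Nat.cast_nonneg (α := ℝ) m]
    have hmain : 4 / (l : ℝ) * logInt N ≤ 8 * Φ N := by
      refine (mul_le_mul (div_le_div_of_nonneg_left (by norm_num) hypos hyl) hliN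
        (FA.ArtinHooley.logInt_nonneg (by exact_mod_cast hN)) (by positivity)).trans (le_of_eq ?_)
      rw [hy, hΦN, Real.rpow_sub hN0, Real.rpow_one, Real.rpow_sub hℓ0, Real.rpow_one]
      field_simp
      ring
    have hlogl : 1 + Real.log l + T + ℓ ≤ 4 * ℓ := by
      have h2l : Real.log l ≤ 2 * ℓ := (Real.log_le_log (Nat.cast_pos.2 hlp.pos)
        (by exact_mod_cast hl2)).trans hlog2L
      linarith
    have herr : A * (l : ℝ) ^ k * (√(N : ℝ) * (1 + Real.log l + T + ℓ)) ≤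
        A * 4 ^ k * 4 * 4 * Φ N := by
      have hyk : y ^ k * √(N : ℝ) * ℓ = Φ N := by
        have e1 : e * (k : ℝ) + 1 / 2 = 1 - e := by
          rw [he]
          field_simp
          ring
        have e2 : 1 - s * (k : ℝ) = s - 1 := by
          rw [hs]
          field_simp
          ring
        rw [hΦN, hy, div_pow, ← Real.rpow_natCast ((N : ℝ) ^ e), ← Real.rpow_natCast (ℓ ^ s),
          ← Real.rpow_mul hN0.le, ← Real.rpow_mul hℓ0.le, Real.sqrt_eq_rpow, ← e1, ← e2,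
          Real.rpow_add hN0, Real.rpow_sub hℓ0, Real.rpow_one]
        ring
      calc A * (l : ℝ) ^ k * (√(N : ℝ) * (1 + Real.log l + T + ℓ))
          ≤ A * (4 * y) ^ k * (√(N : ℝ) * (4 * ℓ)) := by
            have := Real.log_natCast_nonneg l
            gcongr
        _ = A * 4 ^ k * 4 * (y ^ k * √(N : ℝ) * ℓ) := by rw [mul_pow]; ring
        _ = A * 4 ^ k * 4 * Φ N := by rw [hyk]
        _ ≤ _ := by
            have : 0 ≤ A * 4 ^ k * 4 * Φ N := by positivity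
            linarith
    have hc0 : 0 ≤ c := by rw [hc]; positivity
    have hne : 0 ≤ (N : ℝ) ^ e := Real.rpow_nonneg hN0.le _
    rw [hMdef]
    linarith
  have h1 := card_mainPart_le hL2 hsplit hM
  have h2 : ((traceCount W t N).card : ℝ) ≤ (mainPart W t N).card + b + c := by
    have h3 : ((traceCount W t N).card : ℝ) ≤ (mainPart W t N).card + (badPrimes W).card +
        ((t.natAbs ^ 2 + 1 : ℕ) : ℝ) := by exact_mod_cast card_traceCount_le W t N
    rw [hb, hc]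
    linarith
  have h3 : 0 ≤ (∑ n ∈ range (max N₀ 2), |(n : ℝ) / Φ n|) * Φ N :=
    mul_nonneg (sum_nonneg fun n _ => abs_nonneg _) hΦ0.le
  have hne : 0 ≤ (N : ℝ) ^ e := Real.rpow_nonneg hN0.le _
  rw [hMdef] at h1
  rw [add_mul, hC₁]
  linarith

end FA.SharpLangTrotter

end
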