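import Fermat.Agent.SharpChebotarev.Psi
import Fermat.Agent.CyclicReductions.Frobenius
import Fermat.Agent.Root.SummaryChebotarevSplit
import Mathlib.FieldTheory.Finite.Basic

/-!
# Counting primes through an abelian quotient of a subgroup

For `ρ : Gal(ℚ̄/ℚ) → G` onto, a subgroup `H` and `φ : H → A` onto an abelian group, the primes with
a conjugate of Frobenius in `φ⁻¹ C` are norms of primes of degree one of the field of `H` with class
in `C` in an extension of degree `|A|`: on the Riemann hypothesis there are at most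
`|C|/|A| li N + O (|C| [G : H] √N (1 + log |G| + ∑_S log p + log N)) + |S|` of them.
-/

set_option autoImplicit false
set_option linter.style.haveILetI false

noncomputable section

open NumberField IsDedekindDomain Module Finset Polynomial
open FA.ArtinHooley (logInt)
open FA.CyclicRed (AllFieldsRH)
open FA.NaturalChebotarev (countIn someFrobSet)
open FA.ChebError (share)
open FA.Hecke (primesLE mem_primesLE)
open scoped Classical Pointwise

local notation "Qb" => AlgebraicClosure ℚ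
local notation "GQ" => AlgebraicClosure ℚ ≃ₐ[ℚ] AlgebraicClosure ℚ

namespace FA.SharpLangTrotter

/-- A prime over `p` whose residues are all fixed by `x ↦ x ^ p` has `p` residues. -/
theorem natCard_quotient_eq {K : Type} [Field K] [NumberField K] (v : HeightOneSpectrum (𝓞 K))
    {p : ℕ} (hp : p.Prime) (hmem : (p : 𝓞 K) ∈ v.asIdeal)
    (hfix : ∀ y : 𝓞 K, y - y ^ p ∈ v.asIdeal) : Nat.card (𝓞 K ⧸ v.asIdeal) = p := by
  haveI := v.isMaximal
  letI := Ideal.Quotient.field v.asIdeal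
  haveI : Finite (𝓞 K ⧸ v.asIdeal) := Ideal.finiteQuotientOfFreeOfNeBot _ v.ne_bot
  haveI := Fintype.ofFinite (𝓞 K ⧸ v.asIdeal)
  have hnorm : Nat.card (𝓞 K ⧸ v.asIdeal) = Ideal.absNorm v.asIdeal := by
    rw [Ideal.absNorm_apply, Submodule.cardQuot_apply]
  refine le_antisymm ?_ ?_
  · have hdeg := FiniteField.X_pow_card_sub_X_natDegree_eq (𝓞 K ⧸ v.asIdeal) hp.one_lt
    have hne : (X ^ p - X : (𝓞 K ⧸ v.asIdeal)[X]) ≠ 0 :=
      ne_zero_of_natDegree_gt (hdeg.symm ▸ hp.pos)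
    rw [Nat.card_eq_fintype_card, ← Finset.card_univ]
    refine (card_le_degree_of_subset_roots fun x _ => ?_).trans hdeg.le
    obtain ⟨y, rfl⟩ := Ideal.Quotient.mk_surjective x
    rw [mem_roots hne, IsRoot.def, eval_sub, eval_pow, eval_X, sub_eq_zero, ← map_pow]
    exact (Ideal.Quotient.eq.2 (hfix y)).symm
  · rw [hnorm]
    have h1 := Ideal.absNorm_dvd_absNorm_of_le
      ((Ideal.span_singleton_le_iff_mem v.asIdeal).2 hmem)
    rw [Ideal.absNorm_span_singleton, show (p : 𝓞 K) = algebraMap ℤ (𝓞 K) p by simp,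
      Algebra.norm_algebraMap, Int.natAbs_pow, Int.natAbs_natCast] at h1
    obtain ⟨i, -, hi⟩ := (Nat.dvd_prime_pow hp).1 h1
    rw [hi]
    refine Nat.le_self_pow (fun h0 => ?_) p
    rw [h0, pow_zero] at hi
    exact v.isPrime.ne_top (Ideal.absNorm_eq_one_iff.1 hi)

/-- **The count through an abelian quotient.** -/
theorem exists_quotient_count : ∃ A : ℝ, 0 ≤ A ∧
    ∀ {G R : Type} [Group G] [Finite G] [CommGroup R] [Finite R] (ρ : GQ →* G),
    IsOpen (ρ.ker : Set GQ) → Function.Surjective ρ → AllFieldsRH →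
    ∀ S : Finset ℕ, (∀ p ∈ S, p.Prime) →
    (∀ p : ℕ, p.Prime → p ∉ S → ∀ B : ValuationSubring Qb, B.LiesOverPrime p →
      B.inertiaSubgroupIn ℚ ≤ ρ.ker) →
    ∀ (H : Subgroup G) (φ : H →* R), Function.Surjective φ → ∀ (C : Set R) (P : ℕ → Prop),
    (∀ p : ℕ, p.Prime → p ∉ S → P p → ∀ B : ValuationSubring Qb, B.LiesOverPrime p →
      ∀ σ : GQ, B.IsFrobeniusAt σ p → ∃ g : G, ∃ h : g * ρ σ * g⁻¹ ∈ H, φ ⟨_, h⟩ ∈ C) →
    ∀ N : ℕ, 2 ≤ N →
    ((((Icc 1 N).filter fun p => p.Prime ∧ P p).card : ℕ) : ℝ) ≤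
      (Nat.card C : ℝ) / Nat.card R * logInt N + A * ((Nat.card C : ℝ) * H.index) *
        (√N * (1 + Real.log (Nat.card G) + ∑ p ∈ S, Real.log p + Real.log N)) + S.card := by
  obtain ⟨A, hA, hcount⟩ := FA.SharpCheb.exists_countF_sharp.{0, 0}
  refine ⟨A, hA, fun {G R} _ _ _ _ ρ hopen hsurj hGRH S hS hun H φ hφsurj C P hP N hN => ?_⟩
  let F : IntermediateField ℚ Qb := IntermediateField.fixedField ρ.ker
  have hFN : F.fixingSubgroup = ρ.ker :=
    InfiniteGalois.fixingSubgroup_fixedField ⟨ρ.ker, Subgroup.isClosed_of_isOpen _ hopen⟩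
  have hFnorm : F.fixingSubgroup.Normal := hFN.symm ▸ MonoidHom.normal_ker ρ
  have hFgal : IsGalois ℚ F := (InfiniteGalois.normal_iff_isGalois F).mp hFnorm
  haveI : FiniteDimensional ℚ F :=
    (InfiniteGalois.isOpen_iff_finite F).mp (by rw [hFN]; exact hopen)
  haveI : NumberField F := { }
  let res : GQ →* (F ≃ₐ[ℚ] F) := AlgEquiv.restrictNormalHom F
  have hres : res.ker = ρ.ker := (IntermediateField.restrictNormalHom_ker F).trans hFN
  have hres_surj : Function.Surjective res :=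
    AlgEquiv.restrictNormalHom_surjective (F := ℚ) (K₁ := F) Qb
  let e₀ : (F ≃ₐ[ℚ] F) →* G := res.liftOfSurjective hres_surj ⟨ρ, hres.le⟩
  have he₀ : ∀ g : GQ, e₀ (res g) = ρ g :=
    MonoidHom.liftOfRightInverse_comp_apply _ _ _ ⟨ρ, hres.le⟩
  have heb : Function.Bijective e₀ := by
    refine ⟨(injective_iff_map_eq_one e₀).mpr fun z hz => ?_, fun r => ?_⟩
    · obtain ⟨g, rfl⟩ := hres_surj z
      rw [he₀] at hz
      rw [← MonoidHom.mem_ker, hres]
      exact hz
    · obtain ⟨g, hg⟩ := hsurj r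
      exact ⟨res g, (he₀ g).trans hg⟩
  let H₀ : Subgroup (F ≃ₐ[ℚ] F) := H.comap e₀
  let toH : H₀ →* H := (e₀.comp H₀.subtype).codRestrict H fun a => a.2
  have htoH : Function.Surjective toH := fun b => by
    obtain ⟨a, ha⟩ := heb.2 (b : G)
    exact ⟨⟨a, show e₀ a ∈ H from ha.symm ▸ b.2⟩, Subtype.ext ha⟩
  let K : IntermediateField ℚ F := IntermediateField.fixedField H₀
  let e₁ : H₀ ≃* (F ≃ₐ[K] F) := IntermediateField.subgroupEquivAlgEquiv H₀
  let ψ : (F ≃ₐ[K] F) →* R := (φ.comp toH).comp e₁.symm.toMonoidHom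
  have hψs : Function.Surjective ψ := (hφsurj.comp htoH).comp e₁.symm.surjective
  let M : IntermediateField K F := IntermediateField.fixedField ψ.ker
  haveI : IsGalois K M := IsGalois.of_fixedField_normal_subgroup ψ.ker
  let resM : (F ≃ₐ[K] F) →* (M ≃ₐ[K] M) := AlgEquiv.restrictNormalHom M
  have hMs : Function.Surjective resM :=
    AlgEquiv.restrictNormalHom_surjective (F := K) (K₁ := M) F
  have hMker : resM.ker = ψ.ker :=
    (IntermediateField.restrictNormalHom_ker M).trans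
      (IntermediateField.fixingSubgroup_fixedField _)
  let ψ' : (M ≃ₐ[K] M) →* R := resM.liftOfSurjective hMs ⟨ψ, hMker.le⟩
  have hψ' : ∀ g, ψ' (resM g) = ψ g :=
    MonoidHom.liftOfRightInverse_comp_apply _ _ _ ⟨ψ, hMker.le⟩
  have hψb : Function.Bijective ψ' := by
    refine ⟨(injective_iff_map_eq_one ψ').mpr fun z hz => ?_, fun r => ?_⟩
    · obtain ⟨g, rfl⟩ := hMs z
      rw [hψ'] at hz
      rw [← MonoidHom.mem_ker, hMker]
      exact hz
    · obtain ⟨g, hg⟩ := hψs r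
      exact ⟨resM g, (hψ' g).trans hg⟩
  obtain ⟨C', hC'⟩ : ∃ C' : Set (M ≃ₐ[K] M), C' = {g | ψ' g ∈ C} := ⟨_, rfl⟩
  have hC'conj : ∀ g ∈ C', ∀ x, x * g * x⁻¹ ∈ C' := by
    rw [hC']
    intro g hg x
    show ψ' (x * g * x⁻¹) ∈ C
    rw [map_mul, map_mul, map_inv, mul_right_comm, mul_inv_cancel, one_mul]
    exact hg
  have hcC : Nat.card C' = Nat.card C := by
    rw [hC']
    exact Nat.card_congr ((Equiv.ofBijective ψ' hψb).subtypeEquiv fun _ => Iff.rfl)
  have hcR : Nat.card (M ≃ₐ[K] M) = Nat.card R := Nat.card_congr (Equiv.ofBijective ψ' hψb)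
  have hshare : share C' = (Nat.card C : ℝ) / Nat.card R := by rw [share, hcC, hcR]
  have hG : finrank ℚ F = Nat.card G :=
    (IsGalois.card_aut_eq_finrank ℚ F).symm.trans (Nat.card_congr (Equiv.ofBijective e₀ heb))
  have hindex : finrank ℚ K = H.index := by
    have h1 : finrank K F = Nat.card H :=
      (IntermediateField.finrank_fixedField_eq_card H₀).trans
        (Nat.card_congr ((Equiv.ofBijective e₀ heb).subtypeEquiv fun _ => Iff.rfl))
    have h2 := Module.finrank_mul_finrank ℚ K F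
    rw [h1, hG, ← H.card_mul_index, mul_comm] at h2
    exact Nat.eq_of_mul_eq_mul_left Nat.card_pos h2
  have hM : finrank ℚ M = H.index * Nat.card R := by
    rw [← Module.finrank_mul_finrank ℚ K M, hindex, ← IsGalois.card_aut_eq_finrank K M, hcR]
  have hfix : ∀ q : ℕ, q.Prime → q ∉ S → ∀ B : ValuationSubring Qb, B.LiesOverPrime q →
      B.inertiaSubgroupIn ℚ ≤ F.fixingSubgroup := fun q hq hqS B hB => hFN ▸ hun q hq hqS B hB
  have hdiscr := FA.Faltings.natAbs_discr_le (K := F) hS fun q Q _ hq hqS hqQ =>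
    FA.Faltings.isUnramifiedAt_of_inertia_le F hq (hfix q hq hqS) Q hqQ
  obtain ⟨T, hT⟩ : ∃ T, T = ∑ p ∈ S, Real.log (p : ℝ) := ⟨_, rfl⟩
  have hdM : FA.DedekindZeroCount.discLog M ≤ finrank ℚ M * (Real.log (Nat.card G) + T) := by
    have hdvd := Dvd.intro_left _ (natAbs_discr_eq_absNorm_differentIdeal_mul_natAbs_discr_pow
      M (𝓞 M) F (𝓞 F)).symm
    have h1 : (finrank M F : ℝ) * Real.log (((discr M).natAbs : ℕ) : ℝ) ≤
        Real.log (((discr F).natAbs : ℕ) : ℝ) := by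
      rw [← Real.log_pow, ← Nat.cast_pow]
      exact Real.log_le_log (Nat.cast_pos.2 (pow_pos (Int.natAbs_pos.2 (discr_ne_zero _)) _))
        (Nat.cast_le.2 (Nat.le_of_dvd (Int.natAbs_pos.2 (discr_ne_zero _)) hdvd))
    have h2 : Real.log (((discr F).natAbs : ℕ) : ℝ) ≤
        finrank ℚ F * (Real.log (Nat.card G) + T) := by
      refine (Real.log_le_log (Nat.cast_pos.2 (Int.natAbs_pos.2 (discr_ne_zero _)))
        (Nat.cast_le.2 hdiscr)).trans (le_of_eq ?_)
      rw [Nat.cast_pow, Real.log_pow, Nat.cast_mul, hG, Real.log_mul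
        (Nat.cast_ne_zero.2 (Nat.card_pos (α := G)).ne')
        (Nat.cast_ne_zero.2 (prod_ne_zero_iff.2 fun p hp => (hS p hp).ne_zero)),
        Nat.cast_prod, Real.log_prod fun p hp => Nat.cast_ne_zero.2 (hS p hp).ne_zero, hT]
    rw [FA.DedekindZeroCount.discLog]
    refine le_of_mul_le_mul_left (h1.trans (h2.trans (le_of_eq ?_)))
      (Nat.cast_pos.2 (finrank_pos (R := M) (M := F)))
    rw [← Module.finrank_mul_finrank ℚ M F]
    push_cast
    ring
  have hN2 : (2 : ℝ) ≤ N := by exact_mod_cast hN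
  have h1 := (abs_le.1 (hcount (K := K) (L := M) (hGRH M) C' hC'conj N hN2)).2
  rw [hshare] at h1
  obtain ⟨V, hV⟩ : ∃ V : Finset ℕ, V = ((primesLE K N).filter
      (· ∈ someFrobSet K M C')).image fun v => Ideal.absNorm v.asIdeal := ⟨_, rfl⟩
  have hsub : ((Icc 1 N).filter fun p => p.Prime ∧ P p) ⊆ V ∪ S := fun p hpU => by
    rw [mem_union]
    by_cases hpS : p ∈ S
    · exact Or.inr hpS
    obtain ⟨hpN, hp, hPp⟩ := mem_filter.1 hpU
    left
    obtain ⟨B, hB⟩ := FA.Deform.exists_liesOverPrime hp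
    obtain ⟨σ, hσ⟩ := FA.Deform.exists_isFrobeniusAt hp hB
    obtain ⟨g, hg, hgC⟩ := hP p hp hpS hPp B hB σ hσ
    obtain ⟨P₀, hP₀⟩ := FA.Chebotarev.exists_isFrobPair_restrict (F := F) hp
      (fun Q' hQ' hpQ' τ' hτ' => by
        haveI := hQ'
        obtain ⟨B', hB', σ', hσ', hστ⟩ := FA.Ext.exists_inertia_lift F Q' hp hpQ' τ' hτ'
        refine AlgEquiv.ext fun y => Subtype.ext ?_
        rw [← hστ y]
        exact hfix p hp hpS B' hB' hσ' y) hB hσ
    obtain ⟨x, hx⟩ := heb.2 g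
    obtain ⟨τ, hτ⟩ : ∃ τ, τ = x * res σ * x⁻¹ := ⟨_, rfl⟩
    have hPr : FA.Density.IsFrobPair p (x • P₀) τ := hτ ▸ hP₀.conj x
    obtain ⟨Pr, hPrdef⟩ : ∃ Pr, Pr = x • P₀ := ⟨_, rfl⟩
    rw [← hPrdef] at hPr
    have heτ : e₀ τ = g * ρ σ * g⁻¹ := by rw [hτ, map_mul, map_mul, map_inv, he₀, hx]
    have hτH : τ ∈ H₀ := show e₀ τ ∈ H from heτ ▸ hg
    haveI : Pr.IsMaximal := hPr.isMaximal
    haveI : Pr.IsPrime := hPr.isMaximal.isPrime
    have hp0 : (p : 𝓞 K) ≠ 0 := Nat.cast_ne_zero.2 hp.ne_zero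
    have hpv : (p : 𝓞 K) ∈ Pr.under (𝓞 K) := by
      rw [Ideal.mem_comap, map_natCast]
      exact hPr.mem
    obtain ⟨v, hv⟩ : ∃ v : HeightOneSpectrum (𝓞 K), v.asIdeal = Pr.under (𝓞 K) :=
      ⟨⟨Pr.under (𝓞 K), Ideal.IsPrime.comap _,
        fun h => hp0 (Ideal.mem_bot.1 (le_of_eq h hpv))⟩, rfl⟩
    obtain ⟨τK, hτK⟩ : ∃ τK, τK = e₁ ⟨τ, hτH⟩ := ⟨_, rfl⟩
    have hfr : ∀ y : 𝓞 F, τK • y - y ^ p ∈ Pr := fun y => by
      have : τK • y = τ • y := by rw [hτK]; rfl
      rw [this]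
      exact hPr.frob y
    have hcard : Nat.card (𝓞 K ⧸ v.asIdeal) = p :=
      natCard_quotient_eq v hp (hv ▸ hpv) fun y => by
        rw [hv, Ideal.mem_comap, map_sub, map_pow]
        have h := hfr (algebraMap (𝓞 K) (𝓞 F) y)
        rwa [show τK • algebraMap (𝓞 K) (𝓞 F) y = algebraMap (𝓞 K) (𝓞 F) y from
          RingOfIntegers.ext (τK.commutes (y : K))] at h
    have hfrK : IsArithFrobAt (𝓞 K) τK Pr := fun y => by
      have h := hfr y
      rw [← hcard, hv] at h
      exact h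
    have hfrM := FA.Chebotarev.isArithFrobAt_restrict M hfrK
    rw [hV, mem_image]
    refine ⟨v, mem_filter.2 ⟨mem_primesLE.2 ?_, Pr.under (𝓞 M), Ideal.IsMaximal.under _ _, ?_,
      resM τK, ?_, hfrM⟩, ?_⟩
    · rw [Ideal.absNorm_apply, Submodule.cardQuot_apply, hcard]
      exact (mem_Icc.1 hpN).2
    · rw [hv, Ideal.under_under]
    · rw [hC', Set.mem_ofPred_eq, hψ']
      have hval : ψ τK = φ ⟨g * ρ σ * g⁻¹, hg⟩ := by
        show φ (toH (e₁.symm τK)) = _
        rw [hτK, MulEquiv.symm_apply_apply]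
        exact congrArg φ (Subtype.ext heτ)
      rw [hval]
      exact hgC
    · rw [Ideal.absNorm_apply, Submodule.cardQuot_apply, hcard]
  have h2 : ((((Icc 1 N).filter fun p => p.Prime ∧ P p).card : ℕ) : ℝ) ≤
      countIn (someFrobSet K M C') (N : ℝ) + S.card := by
    have h3 : V.card ≤ countIn (someFrobSet K M C') (N : ℝ) := by
      rw [hV, countIn, Nat.floor_natCast]
      exact card_image_le
    exact_mod_cast ((card_le_card hsub).trans (card_union_le _ _)).trans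
      (Nat.add_le_add_right h3 _)
  have hR0 : (0 : ℝ) < Nat.card R := Nat.cast_pos.2 Nat.card_pos
  have h4 : A * ((Nat.card C : ℝ) / Nat.card R) *
      (√(N : ℝ) * (FA.DedekindZeroCount.discLog M + finrank ℚ M * Real.log N)) ≤
      A * ((Nat.card C : ℝ) * H.index) *
        (√(N : ℝ) * (1 + Real.log (Nat.card G) + T + Real.log N)) := by
    refine (mul_le_mul_of_nonneg_left (mul_le_mul_of_nonneg_left (add_le_add hdM le_rfl)
      (Real.sqrt_nonneg _)) (by positivity)).trans ?_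
    rw [hM, Nat.cast_mul]
    refine le_of_eq_of_le (b := A * ((Nat.card C : ℝ) * H.index) *
      (√(N : ℝ) * (Real.log (Nat.card G) + T + Real.log N))) (by field_simp) ?_
    gcongr
    linarith
  rw [hT] at h4
  simp only [FA.ArtinHooley.logInt] at h1 ⊢
  linarith

end FA.SharpLangTrotter

end
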