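import Fermat.Agent.SharpLangTrotter.Quotient
import Fermat.Agent.CyclicReductions.Count
import Mathlib.LinearAlgebra.Matrix.GeneralLinearGroup.Card

/-!
# The Borel subgroup

An element of `GL₂(𝔽_l)`, `l` odd, of trace `t` with `t² - 4 det` a square is conjugate to an upper
triangular one, whose diagonal lies in `{(a, b) : a + b = t}`: at most `l` pairs among `(l - 1)²`;
for `t = 0` its quotient is `-1`, one element among `l - 1`. The subgroup has index `≤ l + 1`.
-/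

set_option autoImplicit false
set_option linter.style.haveILetI false

noncomputable section

open Matrix Finset WeierstrassCurve FA.Frob
open FA.ArtinHooley (logInt)
open FA.CyclicRed (AllFieldsRH badPrimes)
open FA.TraceDist (glLevel)
open scoped Classical WeierstrassCurve.Affine

local notation "Qb" => AlgebraicClosure ℚ
local notation "GQ" => AlgebraicClosure ℚ ≃ₐ[ℚ] AlgebraicClosure ℚ

namespace FA.SharpLangTrotter

variable {l : ℕ} [hl : Fact l.Prime]

/-- The upper triangular matrices. -/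
def borel (l : ℕ) [Fact l.Prime] : Subgroup (GL (Fin 2) (ZMod l)) where
  carrier := {g | (g : Matrix (Fin 2) (Fin 2) (ZMod l)) 1 0 = 0}
  one_mem' := by simp
  mul_mem' {a b} ha hb := by
    have ha' : (a : Matrix (Fin 2) (Fin 2) (ZMod l)) 1 0 = 0 := ha
    have hb' : (b : Matrix (Fin 2) (Fin 2) (ZMod l)) 1 0 = 0 := hb
    show ((a * b : GL (Fin 2) (ZMod l)) : Matrix (Fin 2) (Fin 2) (ZMod l)) 1 0 = 0
    simp [Units.val_mul, Matrix.mul_apply, Fin.sum_univ_two, ha', hb']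
  inv_mem' {a} ha := by
    have ha' : (a : Matrix (Fin 2) (Fin 2) (ZMod l)) 1 0 = 0 := ha
    show ((a⁻¹ : GL (Fin 2) (ZMod l)) : Matrix (Fin 2) (Fin 2) (ZMod l)) 1 0 = 0
    rw [Matrix.coe_units_inv, Matrix.inv_def, Matrix.adjugate_fin_two]
    simp [ha']

theorem diag_ne_zero (g : borel l) :
    (g.1 : Matrix (Fin 2) (Fin 2) (ZMod l)) 0 0 ≠ 0 ∧
      (g.1 : Matrix (Fin 2) (Fin 2) (ZMod l)) 1 1 ≠ 0 := by
  have h := (Matrix.isUnit_iff_isUnit_det _).1 g.1.isUnit
  rw [det_fin_two, show (g.1 : Matrix (Fin 2) (Fin 2) (ZMod l)) 1 0 = 0 from g.2, mul_zero,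
    sub_zero, isUnit_iff_ne_zero, mul_ne_zero_iff] at h
  exact h

/-- The diagonal. -/
def diagHom (l : ℕ) [Fact l.Prime] : borel l →* (ZMod l)ˣ × (ZMod l)ˣ where
  toFun g := (Units.mk0 _ (diag_ne_zero g).1, Units.mk0 _ (diag_ne_zero g).2)
  map_one' := by
    refine Prod.ext (Units.ext ?_) (Units.ext ?_) <;> simp
  map_mul' a b := by
    have ha : (a.1 : Matrix (Fin 2) (Fin 2) (ZMod l)) 1 0 = 0 := a.2
    have hb : (b.1 : Matrix (Fin 2) (Fin 2) (ZMod l)) 1 0 = 0 := b.2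
    refine Prod.ext (Units.ext ?_) (Units.ext ?_) <;>
      simp [Units.val_mul, Matrix.mul_apply, Fin.sum_univ_two, ha, hb]

/-- The quotient of the diagonal entries. -/
def ratioHom (l : ℕ) [Fact l.Prime] : borel l →* (ZMod l)ˣ :=
  ((MonoidHom.fst _ _).comp (diagHom l)) / ((MonoidHom.snd _ _).comp (diagHom l))

/-- The upper triangular matrix of given entries. -/
def triangular (a b : (ZMod l)ˣ) (c : ZMod l) : borel l :=
  ⟨Matrix.GeneralLinearGroup.mkOfDetNeZero !![(a : ZMod l), c; 0, (b : ZMod l)]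
    (by simp [det_fin_two]), by show _ = (0 : ZMod l); simp⟩

theorem diagHom_triangular (a b : (ZMod l)ˣ) (c : ZMod l) :
    diagHom l (triangular a b c) = (a, b) := by
  refine Prod.ext (Units.ext ?_) (Units.ext ?_) <;> simp [diagHom, triangular]

theorem diagHom_surjective : Function.Surjective (diagHom l) := fun x =>
  ⟨triangular x.1 x.2 0, diagHom_triangular _ _ _⟩

theorem ratioHom_surjective : Function.Surjective (ratioHom l) := fun u =>
  ⟨triangular u 1 0, by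
    rw [ratioHom, MonoidHom.div_apply, MonoidHom.comp_apply, MonoidHom.comp_apply,
      diagHom_triangular]
    simp⟩

theorem borel_index_le : (borel l).index ≤ l + 1 := by
  have hcard : (l - 1) * (l - 1) * l ≤ Nat.card (borel l) := by
    refine le_trans (le_of_eq ?_) (Nat.card_le_card_of_injective
      (fun x : ((ZMod l)ˣ × (ZMod l)ˣ) × ZMod l => triangular x.1.1 x.1.2 x.2) fun x y h => ?_)
    · rw [Nat.card_prod, Nat.card_prod, Nat.card_zmod, Nat.card_eq_fintype_card, ZMod.card_units]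
    · have h1 := congrArg (fun g : borel l => diagHom l g) h
      simp only [diagHom_triangular] at h1
      have h2 := congrArg (fun g : borel l => (g.1 : Matrix (Fin 2) (Fin 2) (ZMod l)) 0 1) h
      simp only [triangular] at h2
      exact Prod.ext h1 (by simpa using h2)
  have hmul := (borel l).card_mul_index
  rw [Matrix.card_GL_field, Fin.prod_univ_two, ZMod.card] at hmul
  obtain ⟨k, rfl⟩ : ∃ k, l = k + 1 := ⟨l - 1, by have := hl.out.two_le; omega⟩
  have hk : 0 < k := by have := hl.out.two_le; omega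
  have h3 : (k + 1) ^ 2 - (k + 1) ^ 0 = k * (k + 2) := by
    rw [pow_zero, show (k + 1) ^ 2 = k * (k + 2) + 1 by ring, Nat.add_sub_cancel]
  have h4 : (k + 1) ^ 2 - (k + 1) ^ 1 = k * (k + 1) := by
    rw [pow_one, show (k + 1) ^ 2 = k * (k + 1) + (k + 1) by ring, Nat.add_sub_cancel]
  simp only [Fin.val_zero, Fin.val_one, h3, h4, Nat.add_sub_cancel] at hmul hcard
  refine Nat.le_of_mul_le_mul_left ?_ (show 0 < k * k * (k + 1) by positivity)
  refine (Nat.mul_le_mul_right _ hcard).trans (le_of_eq ?_)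
  rw [hmul]
  ring

/-- **Conjugation to triangular form.** -/
theorem exists_conj_borel (hl2 : l ≠ 2) (g : GL (Fin 2) (ZMod l)) (t : ZMod l)
    (ht : (g : Matrix (Fin 2) (Fin 2) (ZMod l)).trace = t)
    (hsq : IsSquare (t ^ 2 - 4 * (g : Matrix (Fin 2) (Fin 2) (ZMod l)).det)) :
    ∃ x : GL (Fin 2) (ZMod l), ∃ h : x * g * x⁻¹ ∈ borel l,
      ((diagHom l ⟨_, h⟩).1 : ZMod l) + (diagHom l ⟨_, h⟩).2 = t := by
  obtain ⟨M, hM⟩ : ∃ M : Matrix (Fin 2) (Fin 2) (ZMod l), M = g := ⟨_, rfl⟩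
  suffices hx : ∃ x : GL (Fin 2) (ZMod l), x * g * x⁻¹ ∈ borel l by
    obtain ⟨x, hx⟩ := hx
    refine ⟨x, hx, ?_⟩
    have htr : ((x * g * x⁻¹ : GL (Fin 2) (ZMod l)) : Matrix (Fin 2) (Fin 2) (ZMod l)).trace =
        t := by
      rw [Units.val_mul, Units.val_mul, trace_units_conj, ht]
    rw [trace_fin_two] at htr
    exact htr
  by_cases h10 : M 1 0 = 0
  · exact ⟨1, by rw [one_mul, inv_one, mul_one]; exact (hM ▸ h10 :)⟩
  obtain ⟨r, hr⟩ := hsq
  have h2 : (2 : ZMod l) ≠ 0 := by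
    intro h0
    have : l ∣ 2 := (ZMod.natCast_eq_zero_iff 2 l).1 (by exact_mod_cast h0)
    exact hl2 ((Nat.prime_dvd_prime_iff_eq hl.out Nat.prime_two).1 this)
  obtain ⟨μ, hμ⟩ : ∃ μ : ZMod l, μ = (t + r) / 2 := ⟨_, rfl⟩
  have hchar : μ * μ - (M 0 0 + M 1 1) * μ + (M 0 0 * M 1 1 - M 0 1 * M 1 0) = 0 := by
    rw [← trace_fin_two, ← det_fin_two, hM, ht, hμ]
    field_simp
    linear_combination -hr
  obtain ⟨X, hX⟩ : ∃ X : Matrix (Fin 2) (Fin 2) (ZMod l), X = !![0, 1; M 1 0, μ - M 0 0] :=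
    ⟨_, rfl⟩
  have hdet : X.det ≠ 0 := by
    rw [hX]
    simpa [det_fin_two] using h10
  refine ⟨Matrix.GeneralLinearGroup.mkOfDetNeZero X hdet, ?_⟩
  show ((_ * g * _ : GL (Fin 2) (ZMod l)) : Matrix (Fin 2) (Fin 2) (ZMod l)) 1 0 = 0
  obtain ⟨y, hy⟩ : ∃ y, y = Matrix.GeneralLinearGroup.mkOfDetNeZero X hdet := ⟨_, rfl⟩
  rw [← hy]
  have hyX : (y : Matrix (Fin 2) (Fin 2) (ZMod l)) = X := by rw [hy]; rfl
  have hrow : ∀ j, ((y * g : GL (Fin 2) (ZMod l)) : Matrix (Fin 2) (Fin 2) (ZMod l)) 1 j =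
      μ * X 1 j := fun j => by
    rw [Units.val_mul, hyX, ← hM, hX, Matrix.mul_apply, Fin.sum_univ_two]
    fin_cases j
    · simp; ring
    · simp
      linear_combination hchar * (-1 : ZMod l)
  have hinv : ((y : Matrix (Fin 2) (Fin 2) (ZMod l)) * ((y⁻¹ : GL (Fin 2) (ZMod l)) :
      Matrix (Fin 2) (Fin 2) (ZMod l))) 1 0 = 0 := by
    rw [← Units.val_mul, mul_inv_cancel, Units.val_one]
    simp
  rw [Matrix.mul_apply, Fin.sum_univ_two, hyX] at hinv
  rw [Units.val_mul, Matrix.mul_apply, Fin.sum_univ_two, hrow, hrow]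
  linear_combination μ * hinv

/-- **The good primes at one level**: `a_p ≡ t` and `t² - 4 p` a square modulo `l`. -/
def borelCount (W : WeierstrassCurve ℤ) (t : ℤ) (l N : ℕ) : Finset ℕ :=
  (Icc 1 N).filter fun p => p.Prime ∧ (p ∉ badPrimes W ∧ (W.apOfModel p : ZMod l) = t ∧
    IsSquare ((t : ZMod l) ^ 2 - 4 * (p : ZMod l)))

/-- `l ^ k` and the shares of the two classes. -/
theorem exists_level_count : ∃ A : ℝ, 0 ≤ A ∧
    ∀ (W : WeierstrassCurve ℤ) [(ratCurve W).IsElliptic], W.Δ ≠ 0 → AllFieldsRH →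
    ∀ (l : ℕ) [Fact l.Prime], l ≠ 2 → Function.Surjective (glLevel W l) → ∀ (t : ℤ) (N : ℕ),
    2 ≤ N → ∀ k : ℕ, (k = 2 ∨ (k = 1 ∧ t = 0)) →
    ((borelCount W t l N).card : ℝ) ≤ 4 / (l : ℝ) * logInt N +
      A * (l : ℝ) ^ k * (√N * (1 + Real.log l + ∑ p ∈ badPrimes W, Real.log p + Real.log N)) +
      ((badPrimes W).card + 1) := by
  obtain ⟨A, hA, hmain⟩ := exists_quotient_count
  refine ⟨10 * A, by positivity, fun W _ hΔ hGRH l _ hl2 hsurj t N hN k hk => ?_⟩
  have hlp : l.Prime := Fact.out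
  haveI : NeZero l := ⟨hlp.ne_zero⟩
  obtain ⟨S, hS⟩ : ∃ S, S = insert l (badPrimes W) := ⟨_, rfl⟩
  have hSp : ∀ p ∈ S, p.Prime := fun p hp => by
    rw [hS, Finset.mem_insert] at hp
    rcases hp with rfl | hp
    exacts [hlp, FA.CyclicRed.prime_of_mem_badPrimes W hp]
  have hSl : ∀ p : ℕ, p.Prime → p ∉ S → ¬ p ∣ l ∧ p ∉ badPrimes W := fun p hp hpS => by
    rw [hS, Finset.mem_insert, not_or] at hpS
    exact ⟨fun hd => hpS.1 ((Nat.prime_dvd_prime_iff_eq hp hlp).1 hd), hpS.2⟩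
  have hun : ∀ p : ℕ, p.Prime → p ∉ S → ∀ B : ValuationSubring Qb, B.LiesOverPrime p →
      B.inertiaSubgroupIn ℚ ≤ (glLevel W l).ker := fun p hp hpS B hB =>
    FA.CyclicRed.inertia_le_ker_glLevel W hp
      (FA.CyclicRed.good_of_not_mem hΔ hp (hSl p hp hpS).2).2 (hSl p hp hpS).1 hB
  have hconj : ∀ p : ℕ, p.Prime → p ∉ S → (p ∉ badPrimes W ∧ (W.apOfModel p : ZMod l) = t ∧
      IsSquare ((t : ZMod l) ^ 2 - 4 * (p : ZMod l))) → ∀ B : ValuationSubring Qb,
      B.LiesOverPrime p → ∀ σ : GQ, B.IsFrobeniusAt σ p →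
      ∃ g, ∃ h : g * glLevel W l σ * g⁻¹ ∈ borel l,
        ((diagHom l ⟨_, h⟩).1 : ZMod l) + (diagHom l ⟨_, h⟩).2 = t :=
      fun p hp hpS ⟨hb, ht, hsq⟩ B hB σ hσ => by
    obtain ⟨htr, hdet⟩ := FA.TraceDist.repLevel_frobenius (W := W) (N := l) hp (hSl p hp hpS).1
      (FA.CyclicRed.good_of_not_mem hΔ hp hb).2 hB hσ
    exact exists_conj_borel hl2 _ _ (htr.trans ht) (by
      rw [show ((glLevel W l σ :
        GL (Fin 2) (ZMod l)) : Matrix (Fin 2) (Fin 2) (ZMod l)).det = (p : ZMod l) from hdet]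
      exact hsq)
  have hl3 : (3 : ℝ) ≤ l := by
    have := hlp.two_le
    exact_mod_cast (show 3 ≤ l by omega)
  have hli := FA.ArtinHooley.logInt_nonneg (show (2 : ℝ) ≤ N by exact_mod_cast hN)
  have hu : Nat.card (ZMod l)ˣ = l - 1 := by rw [Nat.card_eq_fintype_card, ZMod.card_units]
  have hl1 : ((l - 1 : ℕ) : ℝ) = (l : ℝ) - 1 := by rw [Nat.cast_sub hlp.one_le, Nat.cast_one]
  have hidx : ((borel l).index : ℝ) ≤ l + 1 := by exact_mod_cast borel_index_le
  obtain ⟨T, hT⟩ : ∃ T, T = ∑ p ∈ badPrimes W, Real.log (p : ℝ) := ⟨_, rfl⟩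
  have hT0 : 0 ≤ T := hT ▸ sum_nonneg fun p _ => Real.log_natCast_nonneg p
  rw [← hT]
  have hU : 1 + Real.log (Nat.card (GL (Fin 2) (ZMod l))) + ∑ p ∈ S, Real.log (p : ℝ) + Real.log N ≤
      5 * (1 + Real.log l + T + Real.log N) := by
    have h4 : Real.log (Nat.card (GL (Fin 2) (ZMod l))) ≤ 4 * Real.log l := by
      refine (Real.log_le_log (Nat.cast_pos.2 Nat.card_pos)
        (Nat.cast_le.2 (FA.CyclicRed.natCard_gl_le l))).trans (le_of_eq ?_)
      rw [Nat.cast_pow, Real.log_pow]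
      norm_num
    have h5 : ∑ p ∈ S, Real.log (p : ℝ) ≤ Real.log l + T := by
      rw [hT, hS]
      by_cases h : l ∈ badPrimes W
      · rw [Finset.insert_eq_of_mem h]
        linarith [Real.log_natCast_nonneg l]
      · rw [Finset.sum_insert h]
    linarith [Real.log_natCast_nonneg l, Real.log_natCast_nonneg N]
  have hcardS : (S.card : ℝ) ≤ (badPrimes W).card + 1 := by
    rw [hS]
    exact_mod_cast Finset.card_insert_le _ _
  have hlog0 : 0 ≤ 1 + Real.log l + T + Real.log N := by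
    linarith [Real.log_natCast_nonneg l, Real.log_natCast_nonneg N]
  suffices h : ∃ c n : ℝ, 0 ≤ n ∧ c ≤ 4 / (l : ℝ) ∧ n ≤ 2 * (l : ℝ) ^ k ∧
      ((borelCount W t l N).card : ℝ) ≤ c * logInt N + A * n *
        (√(N : ℝ) * (1 + Real.log (Nat.card (GL (Fin 2) (ZMod l))) +
          ∑ p ∈ S, Real.log (p : ℝ) + Real.log N)) + S.card by
    obtain ⟨c, n, hn0, hc, hn, hbd⟩ := h
    refine hbd.trans (add_le_add (add_le_add (mul_le_mul_of_nonneg_right hc hli) ?_) hcardS)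
    calc A * n * (√(N : ℝ) * (1 + Real.log (Nat.card (GL (Fin 2) (ZMod l))) +
          ∑ p ∈ S, Real.log (p : ℝ) + Real.log N))
        ≤ A * n * (√(N : ℝ) * (5 * (1 + Real.log l + T + Real.log N))) := by gcongr
      _ ≤ A * (2 * (l : ℝ) ^ k) * (√(N : ℝ) * (5 * (1 + Real.log l + T + Real.log N))) :=
          mul_le_mul_of_nonneg_right (mul_le_mul_of_nonneg_left hn hA)
            (mul_nonneg (Real.sqrt_nonneg _) (by linarith))
      _ = _ := by ring
  rw [borelCount]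
  rcases hk with rfl | ⟨rfl, rfl⟩
  · obtain ⟨C, hC⟩ : ∃ C : Set ((ZMod l)ˣ × (ZMod l)ˣ),
        C = {x | (x.1 : ZMod l) + x.2 = t} := ⟨_, rfl⟩
    have hmem : ∀ x : (ZMod l)ˣ × (ZMod l)ˣ, x ∈ C ↔ (x.1 : ZMod l) + x.2 = t := fun x => by
      rw [hC]
      rfl
    have hcC : (Nat.card C : ℝ) ≤ l := by
      have h := Nat.card_le_card_of_injective (fun x : C => ((x.1.1 : (ZMod l)ˣ) : ZMod l))
        fun x y e => Subtype.ext (Prod.ext (Units.ext e) (Units.ext (add_left_cancel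
          (((hmem _).1 x.2).trans (((hmem _).1 y.2).symm.trans (congrArg (· + _) e.symm))))))
      rw [Nat.card_zmod] at h
      exact_mod_cast h
    have h := hmain (glLevel W l) FA.TraceDist.isOpen_ker_glLevel hsurj hGRH S hSp hun (borel l)
      (diagHom l) diagHom_surjective C (fun p => p ∉ badPrimes W ∧ (W.apOfModel p : ZMod l) = t ∧
        IsSquare ((t : ZMod l) ^ 2 - 4 * (p : ZMod l))) (fun p hp hpS hP B hB σ hσ => by
        obtain ⟨g, h, hg⟩ := hconj p hp hpS hP B hB σ hσ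
        exact ⟨g, h, (hmem _).2 hg⟩) N hN
    refine ⟨(Nat.card C : ℝ) / Nat.card ((ZMod l)ˣ × (ZMod l)ˣ),
      (Nat.card C : ℝ) * (borel l).index, ?_, ?_, ?_, by convert h⟩
    · positivity
    · rw [Nat.card_prod, hu, Nat.cast_mul, hl1, div_le_div_iff₀ (by nlinarith) (by linarith)]
      nlinarith [mul_le_mul_of_nonneg_right hcC (show (0 : ℝ) ≤ l by linarith)]
    · refine (mul_le_mul hcC hidx (Nat.cast_nonneg _) (Nat.cast_nonneg _)).trans ?_
      nlinarith
  · have h := hmain (glLevel W l) FA.TraceDist.isOpen_ker_glLevel hsurj hGRH S hSp hun (borel l)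
      (ratioHom l) ratioHom_surjective {-1} (fun p => p ∉ badPrimes W ∧
        (W.apOfModel p : ZMod l) = ((0 : ℤ) : ZMod l) ∧
        IsSquare ((((0 : ℤ) : ZMod l)) ^ 2 - 4 * (p : ZMod l))) (fun p hp hpS hP B hB σ hσ => by
        obtain ⟨g, h, hg⟩ := hconj p hp hpS hP B hB σ hσ
        refine ⟨g, h, Set.mem_singleton_iff.2 (Units.ext ?_)⟩
        rw [Int.cast_zero, add_eq_zero_iff_eq_neg] at hg
        rw [ratioHom, MonoidHom.div_apply, Units.val_div_eq_div_val, Units.val_neg, Units.val_one,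
          MonoidHom.comp_apply, MonoidHom.comp_apply, MonoidHom.coe_fst, MonoidHom.coe_snd, hg,
          neg_div, div_self (Units.ne_zero _)]) N hN
    refine ⟨(Nat.card ({-1} : Set (ZMod l)ˣ) : ℝ) / Nat.card (ZMod l)ˣ,
      (Nat.card ({-1} : Set (ZMod l)ˣ) : ℝ) * (borel l).index, ?_, ?_, ?_, by convert h⟩
    · positivity
    · rw [Nat.card_unique, Nat.cast_one, hu, hl1, div_le_div_iff₀ (by linarith) (by linarith)]
      linarith
    · rw [Nat.card_unique, Nat.cast_one, one_mul, pow_one]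
      linarith

end FA.SharpLangTrotter

end
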